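import Fermat.Agent.S05.Defs

/-!
# S44 / Ram : the abstract RAM lemma        key `S44/RAM` (helper13)

`w : RVal F` a real valued valuation, `Γ = (1/(p-1)) ℤ` (`InG p t`).
`τ c0 = ζ c0`, `w c0 ∉ Γ` (TR), the `τ`-fixed elements have their valuation in `Γ`.
Then every integral `α = ∑_{i<p} a_i c0^i` (`a_i` fixed by `τ`) satisfies
`w (τ α - α) ≥ 1/(p-1) + 1/(p(p-1))`.

* `ram_terms` : a sum of terms with pairwise distinct valuations is integral iff every term is.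
* `ram_core`  : the statement for an explicit expansion.
* `ram`       : the statement for a `τ`-stable subfield `L` on which `τ^p = 1`
  (Lagrange resolvents `a_i c0^i = (1/p) ∑_k ζ^(-ik) τ^k α`; no Galois correspondence needed).
* `ram_scaled`: scaled form.
* `ram_core_gt`, `ram_gt`, `ram_inertia` : no discreteness, arbitrary valuation:
  `w (τ α - α) > w p / (p - 1)`;  `w_zeta_sub_one : w (ζ - 1) = w p / (p - 1)`.
-/

set_option autoImplicit false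

namespace Fermat.Agent.S44

open Fermat.Agent.S05

variable {F : Type*} [Field F] (w : RVal F)

/-- `t ∈ (1/(p-1)) ℤ` -/
def InG (p : ℕ) (t : ℝ) : Prop := ∃ n : ℤ, t = n / ((p : ℝ) - 1)

theorem InG.add {p : ℕ} {s t : ℝ} (hs : InG p s) (ht : InG p t) : InG p (s + t) := by
  obtain ⟨m, rfl⟩ := hs
  obtain ⟨n, rfl⟩ := ht
  exact ⟨m + n, by push_cast; ring⟩

theorem InG.neg {p : ℕ} {s : ℝ} (hs : InG p s) : InG p (-s) := by
  obtain ⟨m, rfl⟩ := hs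
  exact ⟨-m, by push_cast; ring⟩

theorem InG.sub {p : ℕ} {s t : ℝ} (hs : InG p s) (ht : InG p t) : InG p (s - t) := by
  rw [sub_eq_add_neg]; exact hs.add ht.neg

theorem InG.zsmul {p : ℕ} {s : ℝ} (hs : InG p s) (k : ℤ) : InG p (k * s) := by
  obtain ⟨m, rfl⟩ := hs
  exact ⟨k * m, by push_cast; ring⟩

theorem InG_zero (p : ℕ) : InG p 0 := ⟨0, by simp⟩

variable {w}

theorem ram_GE_sum {ι : Type*} (s : Finset ι) (x : ι → F) (t : ℝ) (h : ∀ i ∈ s, w.GE (x i) t) :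
    w.GE (∑ i ∈ s, x i) t := by
  classical
  induction s using Finset.induction_on with
  | empty => simpa using RVal.GE_zero t
  | insert a s ha ih =>
    rw [Finset.sum_insert ha]
    exact (h a (Finset.mem_insert_self a s)).add
      (ih fun i hi => h i (Finset.mem_insert_of_mem hi))

/-- the valuation of a sum of terms with pairwise distinct valuations -/
theorem ram_min {ι : Type*} (s : Finset ι) (x : ι → F)
    (hd : ∀ i ∈ s, ∀ j ∈ s, i ≠ j → x i ≠ 0 → x j ≠ 0 → w.w (x i) ≠ w.w (x j)) :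
    (∀ i ∈ s, x i = 0) ∨ (∑ i ∈ s, x i ≠ 0 ∧ ∃ i₀ ∈ s, x i₀ ≠ 0 ∧
      w.w (∑ i ∈ s, x i) = w.w (x i₀) ∧ ∀ j ∈ s, x j ≠ 0 → w.w (x i₀) ≤ w.w (x j)) := by
  classical
  induction s using Finset.induction_on with
  | empty => left; simp
  | insert a s ha ih =>
    have ih' := ih fun i hi j hj => hd i (Finset.mem_insert_of_mem hi) j (Finset.mem_insert_of_mem hj)
    rw [Finset.sum_insert ha]
    by_cases hxa : x a = 0
    · rw [hxa, zero_add]
      rcases ih' with h | ⟨h1, i₀, hi₀, h2, h3, h4⟩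
      · left
        intro i hi
        rcases Finset.mem_insert.1 hi with rfl | hi
        · exact hxa
        · exact h i hi
      · right
        refine ⟨h1, i₀, Finset.mem_insert_of_mem hi₀, h2, h3, ?_⟩
        intro j hj hxj
        rcases Finset.mem_insert.1 hj with rfl | hj
        · exact absurd hxa hxj
        · exact h4 j hj hxj
    · right
      rcases ih' with h | ⟨h1, i₀, hi₀, h2, h3, h4⟩
      · rw [Finset.sum_eq_zero h, add_zero]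
        refine ⟨hxa, a, Finset.mem_insert_self a s, hxa, rfl, ?_⟩
        intro j hj hxj
        rcases Finset.mem_insert.1 hj with rfl | hj
        · exact le_rfl
        · exact absurd (h j hj) hxj
      · have hne : a ≠ i₀ := fun h => ha (h ▸ hi₀)
        have hdist := hd a (Finset.mem_insert_self a s) i₀ (Finset.mem_insert_of_mem hi₀) hne hxa h2
        rcases lt_or_gt_of_ne hdist with hlt | hlt
        · have e : w.EQ (x a + ∑ i ∈ s, x i) (w.w (x a)) :=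
            RVal.EQ.add_GT ⟨hxa, rfl⟩ (Or.inr (by rw [h3]; exact hlt))
          refine ⟨e.1, a, Finset.mem_insert_self a s, hxa, e.2, ?_⟩
          intro j hj hxj
          rcases Finset.mem_insert.1 hj with rfl | hj
          · exact le_rfl
          · exact hlt.le.trans (h4 j hj hxj)
        · have e : w.EQ (x a + ∑ i ∈ s, x i) (w.w (x i₀)) :=
            RVal.EQ.GT_add ⟨h1, h3⟩ (Or.inr hlt)
          refine ⟨e.1, i₀, Finset.mem_insert_of_mem hi₀, h2, e.2, ?_⟩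
          intro j hj hxj
          rcases Finset.mem_insert.1 hj with rfl | hj
          · exact hlt.le
          · exact h4 j hj hxj

theorem ram_terms {ι : Type*} (s : Finset ι) (x : ι → F)
    (hd : ∀ i ∈ s, ∀ j ∈ s, i ≠ j → x i ≠ 0 → x j ≠ 0 → w.w (x i) ≠ w.w (x j)) {t : ℝ}
    (h : w.GE (∑ i ∈ s, x i) t) : ∀ i ∈ s, w.GE (x i) t := by
  intro i hi
  rcases ram_min s x hd with h0 | ⟨h1, i₀, _, _, h3, h4⟩
  · exact Or.inl (h0 i hi)
  · by_cases hxi : x i = 0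
    · exact Or.inl hxi
    · exact Or.inr ((h.le_w h1).trans (by rw [h3]; exact h4 i hi hxi))

/-- `k w ∉ Γ` for `0 < |k| < p` if `p w ∈ Γ`, `w ∉ Γ` -/
theorem ram_not_InG {p : ℕ} (hp : p.Prime) {t : ℝ} (hpt : InG p (p * t)) (ht : ¬ InG p t)
    {k : ℤ} (hk : ¬ (p : ℤ) ∣ k) : ¬ InG p (k * t) := by
  intro hkt
  have hcop : IsCoprime k (p : ℤ) :=
    ((Nat.prime_iff_prime_int.1 hp).coprime_iff_not_dvd.2 hk).symm
  obtain ⟨a, b, hab⟩ := hcop
  apply ht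
  have h1 := (hkt.zsmul a).add (hpt.zsmul b)
  have h2 : (a : ℝ) * (k * t) + (b : ℝ) * (p * t) = t := by
    have : ((a * k + b * p : ℤ) : ℝ) = 1 := by rw [hab]; simp
    push_cast at this
    linear_combination t * this
  rwa [h2] at h1

theorem ram_GE_zeta_pow {ζ : F} {s : ℝ} (hs : 0 ≤ s) (hζ : w.GE (ζ - 1) s) (i : ℕ) :
    w.GE (ζ ^ i - 1) s := by
  have hζ0 : w.GE ζ 0 := by
    have : ζ = (ζ - 1) + 1 := by ring
    rw [this]
    exact (hζ.mono hs).add (RVal.EQ_one.GE le_rfl)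
  induction i with
  | zero => simpa using RVal.GE_zero s
  | succ i ih =>
    have : ζ ^ (i + 1) - 1 = ζ * (ζ ^ i - 1) + (ζ - 1) := by ring
    rw [this]
    exact ((hζ0.mul ih).mono (by linarith)).add hζ

/-- the RAM lemma for an explicit expansion -/
theorem ram_core {p : ℕ} (hp : p.Prime) (τ : F →+* F) {ζ c0 : F}
    (hζ : w.GE (ζ - 1) (1 / ((p : ℝ) - 1))) (hc0 : c0 ≠ 0) (hτc : τ c0 = ζ * c0)
    (hcp : InG p (p * w.w c0)) (hTR : ¬ InG p (w.w c0))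
    (a : ℕ → F) (hτa : ∀ i, τ (a i) = a i) (hΓ : ∀ i, a i ≠ 0 → InG p (w.w (a i)))
    (hα : w.GE (∑ i ∈ Finset.range p, a i * c0 ^ i) 0) :
    w.GE (τ (∑ i ∈ Finset.range p, a i * c0 ^ i) - ∑ i ∈ Finset.range p, a i * c0 ^ i)
      (1 / ((p : ℝ) - 1) + 1 / ((p : ℝ) * ((p : ℝ) - 1))) := by
  have hp1 : (0 : ℝ) < (p : ℝ) - 1 := by
    have : (1 : ℝ) < p := by exact_mod_cast hp.one_lt
    linarith
  have hp0 : (0 : ℝ) < p := by exact_mod_cast hp.pos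
  have hw : ∀ i, a i ≠ 0 → w.w (a i * c0 ^ i) = w.w (a i) + i * w.w c0 := by
    intro i hi
    rw [w.map_mul _ _ hi (pow_ne_zero i hc0), RVal.w_pow hc0]
  have hne : ∀ i, a i * c0 ^ i ≠ 0 → a i ≠ 0 := fun i h => left_ne_zero_of_mul h
  -- distinct valuations
  have hd : ∀ i ∈ Finset.range p, ∀ j ∈ Finset.range p, i ≠ j → a i * c0 ^ i ≠ 0 →
      a j * c0 ^ j ≠ 0 → w.w (a i * c0 ^ i) ≠ w.w (a j * c0 ^ j) := by
    intro i hi j hj hij h1 h2 heq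
    rw [hw i (hne i h1), hw j (hne j h2)] at heq
    have hk : ¬ (p : ℤ) ∣ ((i : ℤ) - j) := by
      intro hdvd
      have hi' := Finset.mem_range.1 hi
      have hj' := Finset.mem_range.1 hj
      have h3 : ((i : ℤ) - j) = 0 := by
        apply Int.eq_zero_of_abs_lt_dvd hdvd
        rw [abs_lt]
        constructor <;> omega
      exact hij (by omega)
    apply ram_not_InG hp hcp hTR hk
    have : (((i : ℤ) - j : ℤ) : ℝ) * w.w c0 = w.w (a j) - w.w (a i) := by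
      push_cast
      linarith
    rw [this]
    exact (hΓ j (hne j h2)).sub (hΓ i (hne i h1))
  have hterms := ram_terms (Finset.range p) (fun i => a i * c0 ^ i) hd hα
  -- the difference
  have hdiff : τ (∑ i ∈ Finset.range p, a i * c0 ^ i) - ∑ i ∈ Finset.range p, a i * c0 ^ i =
      ∑ i ∈ Finset.range p, (ζ ^ i - 1) * (a i * c0 ^ i) := by
    rw [map_sum, ← Finset.sum_sub_distrib]
    refine Finset.sum_congr rfl fun i _ => ?_
    rw [map_mul, map_pow, hτa, hτc, mul_pow]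
    ring
  rw [hdiff]
  refine ram_GE_sum _ _ _ fun i hi => ?_
  rcases Nat.eq_zero_or_pos i with rfl | hi0
  · simpa using RVal.GE_zero _
  refine (ram_GE_zeta_pow (by positivity) hζ i).mul ?_
  by_cases hx : a i * c0 ^ i = 0
  · exact Or.inl hx
  right
  have h0 : 0 ≤ w.w (a i * c0 ^ i) := (hterms i hi).le_w hx
  obtain ⟨n, hn⟩ := hΓ i (hne i hx)
  obtain ⟨m, hm⟩ := hcp
  have hval : w.w (a i * c0 ^ i) = ((p * n + i * m : ℤ) : ℝ) / ((p : ℝ) * ((p : ℝ) - 1)) := by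
    rw [hw i (hne i hx), hn]
    have hm' : w.w c0 = m / ((p : ℝ) - 1) / p := by
      rw [← hm]; field_simp
    rw [hm']
    push_cast
    field_simp
  have hpos : 0 < p * n + i * m := by
    have h1 : (0 : ℝ) ≤ ((p * n + i * m : ℤ) : ℝ) := by
      rw [hval] at h0
      have := mul_nonneg h0 (mul_pos hp0 hp1).le
      rwa [div_mul_cancel₀ _ (mul_pos hp0 hp1).ne'] at this
    have h2 : (0 : ℤ) ≤ p * n + i * m := by exact_mod_cast h1
    rcases h2.lt_or_eq with h | h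
    · exact h
    exfalso
    have hk : ¬ (p : ℤ) ∣ (i : ℤ) := by
      intro hdvd
      have := Int.le_of_dvd (by exact_mod_cast hi0) hdvd
      have := Finset.mem_range.1 hi
      omega
    apply ram_not_InG hp ⟨m, hm⟩ hTR hk
    have h3 : w.w (a i * c0 ^ i) = 0 := by rw [hval, ← h]; simp
    rw [hw i (hne i hx)] at h3
    have : ((i : ℤ) : ℝ) * w.w c0 = - w.w (a i) := by push_cast; linarith
    rw [this]
    exact (hΓ i (hne i hx)).neg
  rw [hval]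
  have h1 : (1 : ℝ) ≤ ((p * n + i * m : ℤ) : ℝ) := by exact_mod_cast hpos
  exact div_le_div_of_nonneg_right h1 (mul_pos hp0 hp1).le

/-- Lagrange resolvents: expansion of `α ∈ L` in powers of `c0` with `τ`-fixed coefficients -/
theorem ram_expand {p : ℕ} (hp : p.Prime) (hpF : (p : F) ≠ 0) (L : Subfield F) (τ : F →+* F)
    (hτL : ∀ x ∈ L, τ x ∈ L) (hτp : ∀ x ∈ L, τ^[p] x = x)
    {ζ c0 : F} (hζ : IsPrimitiveRoot ζ p) (hζL : ζ ∈ L) (hτζ : τ ζ = ζ)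
    (hc0 : c0 ≠ 0) (hc0L : c0 ∈ L) (hτc : τ c0 = ζ * c0) {α : F} (hαL : α ∈ L) :
    ∃ a : ℕ → F, (∀ i, a i ∈ L) ∧ (∀ i, τ (a i) = a i) ∧
      ∑ i ∈ Finset.range p, a i * c0 ^ i = α := by
  have hζ0 : ζ ≠ 0 := hζ.ne_zero hp.ne_zero
  set ξ : F := ζ⁻¹ with hξ
  have hξL : ξ ∈ L := L.inv_mem hζL
  have hτξ : τ ξ = ξ := by rw [hξ, map_inv₀, hτζ]
  have hξp : ξ ^ p = 1 := by rw [hξ, inv_pow, hζ.pow_eq_one, inv_one]
  have hζξ : ζ * ξ = 1 := mul_inv_cancel₀ hζ0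
  have hitL : ∀ k, τ^[k] α ∈ L := by
    intro k
    induction k with
    | zero => exact hαL
    | succ k ih => rw [Function.iterate_succ_apply']; exact hτL _ ih
  let f : ℕ → ℕ → F := fun i k => ξ ^ (i * k) * τ^[k] α
  let b : ℕ → F := fun i => (p : F)⁻¹ * ∑ k ∈ Finset.range p, f i k
  have hbL : ∀ i, b i ∈ L := by
    intro i
    refine L.mul_mem (L.inv_mem (natCast_mem L p)) (L.sum_mem fun k _ => ?_)
    exact L.mul_mem (L.pow_mem hξL _) (hitL k)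
  have hτf : ∀ i k, τ (f i k) = ζ ^ i * f i (k + 1) := by
    intro i k
    show τ (ξ ^ (i * k) * τ^[k] α) = ζ ^ i * (ξ ^ (i * (k + 1)) * τ^[k + 1] α)
    rw [map_mul, map_pow, hτξ, Function.iterate_succ_apply', mul_add, mul_one, pow_add,
      ← mul_assoc, ← mul_assoc, mul_comm (ζ ^ i), mul_assoc (ξ ^ (i * k)), ← mul_pow,
      hζξ, one_pow, mul_one]
  have hτb : ∀ i, τ (b i) = ζ ^ i * b i := by
    intro i
    show τ ((p : F)⁻¹ * ∑ k ∈ Finset.range p, f i k) = ζ ^ i * ((p : F)⁻¹ * ∑ k ∈ Finset.range p, f i k)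
    rw [map_mul, map_inv₀, map_natCast, map_sum]
    simp only [hτf]
    rw [← Finset.mul_sum]
    have hshift : ∑ k ∈ Finset.range p, f i (k + 1) = ∑ k ∈ Finset.range p, f i k := by
      have h1 := Finset.sum_range_succ (f i) p
      have h2 := Finset.sum_range_succ' (f i) p
      have h3 : f i p = f i 0 := by
        show ξ ^ (i * p) * τ^[p] α = ξ ^ (i * 0) * τ^[0] α
        rw [hτp α hαL, mul_comm i p, pow_mul, hξp, one_pow, mul_zero, pow_zero]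
        rfl
      rw [h1, h3] at h2
      exact (add_right_cancel h2).symm
    rw [hshift]
    ring
  have hsum : ∑ i ∈ Finset.range p, b i = α := by
    show ∑ i ∈ Finset.range p, (p : F)⁻¹ * ∑ k ∈ Finset.range p, f i k = α
    rw [← Finset.mul_sum, Finset.sum_comm]
    have h1 : ∀ k ∈ Finset.range p, ∑ i ∈ Finset.range p, f i k =
        if k = 0 then (p : F) * α else 0 := by
      intro k hk
      show ∑ i ∈ Finset.range p, ξ ^ (i * k) * τ^[k] α = _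
      rw [← Finset.sum_mul]
      split_ifs with hk0
      · subst hk0
        simp
      · have h2 : ∑ i ∈ Finset.range p, ξ ^ (i * k) = 0 := by
          have h3 : ∀ i, ξ ^ (i * k) = (ξ ^ k) ^ i := fun i => by rw [← pow_mul, mul_comm]
          simp only [h3]
          have h4 := geom_sum_mul (ξ ^ k) p
          rw [← pow_mul, mul_comm k p, pow_mul, hξp, one_pow, sub_self] at h4
          have h5 : ξ ^ k - 1 ≠ 0 := by
            intro h6
            have h7 : ζ ^ k = 1 := by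
              have : ξ ^ k = 1 := sub_eq_zero.1 h6
              rw [hξ, inv_pow, inv_eq_one] at this
              exact this
            have h8 := hζ.dvd_of_pow_eq_one k h7
            exact absurd (Nat.le_of_dvd (Nat.pos_of_ne_zero hk0) h8)
              (not_le.2 (Finset.mem_range.1 hk))
          exact (mul_eq_zero.1 h4).resolve_right h5
        rw [h2, zero_mul]
    rw [Finset.sum_congr rfl h1, Finset.sum_ite_eq' (Finset.range p) 0,
      if_pos (Finset.mem_range.2 hp.pos), ← mul_assoc, inv_mul_cancel₀ hpF, one_mul]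
  let a : ℕ → F := fun i => b i / c0 ^ i
  have haL : ∀ i, a i ∈ L := fun i => L.div_mem (hbL i) (L.pow_mem hc0L i)
  have hτa : ∀ i, τ (a i) = a i := by
    intro i
    show τ (b i / c0 ^ i) = b i / c0 ^ i
    rw [map_div₀, map_pow, hτb, hτc, mul_pow, mul_div_mul_left _ _ (pow_ne_zero i hζ0)]
  have hexp : ∑ i ∈ Finset.range p, a i * c0 ^ i = α := by
    rw [← hsum]
    refine Finset.sum_congr rfl fun i _ => ?_
    exact div_mul_cancel₀ _ (pow_ne_zero i hc0)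
  exact ⟨a, haL, hτa, hexp⟩

/-- the RAM lemma for a `τ`-stable subfield on which `τ ^ p = 1` (Lagrange resolvents) -/
theorem ram {p : ℕ} (hp : p.Prime) (hpF : (p : F) ≠ 0) (L : Subfield F) (τ : F →+* F)
    (hτL : ∀ x ∈ L, τ x ∈ L) (hτp : ∀ x ∈ L, τ^[p] x = x)
    {ζ c0 : F} (hζ : IsPrimitiveRoot ζ p) (hζL : ζ ∈ L) (hτζ : τ ζ = ζ)
    (hwζ : w.GE (ζ - 1) (1 / ((p : ℝ) - 1)))
    (hc0 : c0 ≠ 0) (hc0L : c0 ∈ L) (hτc : τ c0 = ζ * c0)
    (hΓ : ∀ a ∈ L, τ a = a → a ≠ 0 → InG p (w.w a)) (hTR : ¬ InG p (w.w c0))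
    {α : F} (hαL : α ∈ L) (hα : w.GE α 0) :
    w.GE (τ α - α) (1 / ((p : ℝ) - 1) + 1 / ((p : ℝ) * ((p : ℝ) - 1))) := by
  obtain ⟨a, haL, hτa, hexp⟩ := ram_expand hp hpF L τ hτL hτp hζ hζL hτζ hc0 hc0L hτc hαL
  have hcp : InG p (p * w.w c0) := by
    rw [← RVal.w_pow hc0]
    refine hΓ _ (L.pow_mem hc0L p) ?_ (pow_ne_zero p hc0)
    rw [map_pow, hτc, mul_pow, hζ.pow_eq_one, one_mul]
  have := ram_core hp τ hwζ hc0 hτc hcp hTR a hτa (fun i hi => hΓ _ (haL i) (hτa i) hi)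
    (by rw [hexp]; exact hα)
  rwa [hexp] at this

/-- scaled form of the RAM lemma -/
theorem ram_scaled {p : ℕ} (hp : p.Prime) (hpF : (p : F) ≠ 0) (L : Subfield F) (τ : F →+* F)
    (hτL : ∀ x ∈ L, τ x ∈ L) (hτp : ∀ x ∈ L, τ^[p] x = x)
    {ζ c0 : F} (hζ : IsPrimitiveRoot ζ p) (hζL : ζ ∈ L) (hτζ : τ ζ = ζ)
    (hwζ : w.GE (ζ - 1) (1 / ((p : ℝ) - 1)))
    (hc0 : c0 ≠ 0) (hc0L : c0 ∈ L) (hτc : τ c0 = ζ * c0)
    (hΓ : ∀ a ∈ L, τ a = a → a ≠ 0 → InG p (w.w a)) (hTR : ¬ InG p (w.w c0))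
    {α d : F} (hαL : α ∈ L) (hdL : d ∈ L) (hτd : τ d = d) (hd0 : d ≠ 0)
    (hα : w.GE α (w.w d)) :
    w.GE (τ α - α) (w.w d + (1 / ((p : ℝ) - 1) + 1 / ((p : ℝ) * ((p : ℝ) - 1)))) := by
  have h1 : w.GE (α / d) 0 := by
    have := hα.mul ((RVal.EQ_self hd0).inv.GE le_rfl)
    rw [div_eq_mul_inv]
    exact this.mono (by linarith)
  have h2 := ram hp hpF L τ hτL hτp hζ hζL hτζ hwζ hc0 hc0L hτc hΓ hTR (L.div_mem hαL hdL) h1
  have h3 : τ α - α = d * (τ (α / d) - α / d) := by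
    rw [map_div₀, hτd]
    field_simp
  rw [h3]
  exact ((RVal.EQ_self hd0).GE le_rfl).mul h2

/-! ### the version without discreteness -/

theorem ram_GT_sum {ι : Type*} (s : Finset ι) (x : ι → F) (t : ℝ) (h : ∀ i ∈ s, w.GT (x i) t) :
    w.GT (∑ i ∈ s, x i) t := by
  classical
  induction s using Finset.induction_on with
  | empty => simpa using RVal.GT_zero t
  | insert a s ha ih =>
    rw [Finset.sum_insert ha]
    exact (h a (Finset.mem_insert_self a s)).add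
      (ih fun i hi => h i (Finset.mem_insert_of_mem hi))

theorem ram_not_mem {p : ℕ} (hp : p.Prime) (Γ : AddSubgroup ℝ) {t : ℝ} (hpt : (p : ℝ) * t ∈ Γ)
    (ht : t ∉ Γ) {k : ℤ} (hk : ¬ (p : ℤ) ∣ k) : (k : ℝ) * t ∉ Γ := by
  intro hkt
  have hcop : IsCoprime k (p : ℤ) :=
    ((Nat.prime_iff_prime_int.1 hp).coprime_iff_not_dvd.2 hk).symm
  obtain ⟨a, b, hab⟩ := hcop
  apply ht
  have h1 := Γ.add_mem (Γ.zsmul_mem hkt a) (Γ.zsmul_mem hpt b)
  have h2 : a • ((k : ℝ) * t) + b • ((p : ℝ) * t) = t := by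
    have : ((a * k + b * p : ℤ) : ℝ) = 1 := by rw [hab]; simp
    push_cast at this
    rw [zsmul_eq_mul, zsmul_eq_mul]
    linear_combination t * this
  rwa [h2] at h1

theorem ram_GE_pow_sub_one {ζ : F} {s : ℝ} (hζ0 : w.GE ζ 0) (hζ : w.GE (ζ - 1) s) (i : ℕ) :
    w.GE (ζ ^ i - 1) s := by
  induction i with
  | zero => simpa using RVal.GE_zero s
  | succ i ih =>
    have : ζ ^ (i + 1) - 1 = ζ * (ζ ^ i - 1) + (ζ - 1) := by ring
    rw [this]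
    exact ((hζ0.mul ih).mono (by linarith)).add hζ

/-- the RAM lemma for an explicit expansion, arbitrary value group `Γ` of the fixed field -/
theorem ram_core_gt {p : ℕ} (hp : p.Prime) (Γ : AddSubgroup ℝ) (τ : F →+* F) {ζ c0 : F} {s : ℝ}
    (hζ0 : w.GE ζ 0) (hζ : w.GE (ζ - 1) s) (hc0 : c0 ≠ 0) (hτc : τ c0 = ζ * c0)
    (hcp : (p : ℝ) * w.w c0 ∈ Γ) (hTR : w.w c0 ∉ Γ)
    (a : ℕ → F) (hτa : ∀ i, τ (a i) = a i) (hΓ : ∀ i, a i ≠ 0 → w.w (a i) ∈ Γ)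
    (hα : w.GE (∑ i ∈ Finset.range p, a i * c0 ^ i) 0) :
    w.GT (τ (∑ i ∈ Finset.range p, a i * c0 ^ i) - ∑ i ∈ Finset.range p, a i * c0 ^ i) s := by
  have hw : ∀ i, a i ≠ 0 → w.w (a i * c0 ^ i) = w.w (a i) + i * w.w c0 := by
    intro i hi
    rw [w.map_mul _ _ hi (pow_ne_zero i hc0), RVal.w_pow hc0]
  have hne : ∀ i, a i * c0 ^ i ≠ 0 → a i ≠ 0 := fun i h => left_ne_zero_of_mul h
  have hd : ∀ i ∈ Finset.range p, ∀ j ∈ Finset.range p, i ≠ j → a i * c0 ^ i ≠ 0 →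
      a j * c0 ^ j ≠ 0 → w.w (a i * c0 ^ i) ≠ w.w (a j * c0 ^ j) := by
    intro i hi j hj hij h1 h2 heq
    rw [hw i (hne i h1), hw j (hne j h2)] at heq
    have hk : ¬ (p : ℤ) ∣ ((i : ℤ) - j) := by
      intro hdvd
      have hi' := Finset.mem_range.1 hi
      have hj' := Finset.mem_range.1 hj
      have h3 : ((i : ℤ) - j) = 0 := by
        apply Int.eq_zero_of_abs_lt_dvd hdvd
        rw [abs_lt]
        constructor <;> omega
      exact hij (by omega)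
    apply ram_not_mem hp Γ hcp hTR hk
    have : (((i : ℤ) - j : ℤ) : ℝ) * w.w c0 = w.w (a j) - w.w (a i) := by
      push_cast
      linarith
    rw [this]
    exact Γ.sub_mem (hΓ j (hne j h2)) (hΓ i (hne i h1))
  have hterms := ram_terms (Finset.range p) (fun i => a i * c0 ^ i) hd hα
  have hdiff : τ (∑ i ∈ Finset.range p, a i * c0 ^ i) - ∑ i ∈ Finset.range p, a i * c0 ^ i =
      ∑ i ∈ Finset.range p, (ζ ^ i - 1) * (a i * c0 ^ i) := by
    rw [map_sum, ← Finset.sum_sub_distrib]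
    refine Finset.sum_congr rfl fun i _ => ?_
    rw [map_mul, map_pow, hτa, hτc, mul_pow]
    ring
  rw [hdiff]
  refine ram_GT_sum _ _ _ fun i hi => ?_
  rcases Nat.eq_zero_or_pos i with rfl | hi0
  · simpa using RVal.GT_zero _
  have key : w.GT (a i * c0 ^ i) 0 := by
    by_cases hx : a i * c0 ^ i = 0
    · exact Or.inl hx
    right
    have h0 : 0 ≤ w.w (a i * c0 ^ i) := (hterms i hi).le_w hx
    rcases h0.lt_or_eq with h | h
    · exact h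
    exfalso
    have hk : ¬ (p : ℤ) ∣ (i : ℤ) := by
      intro hdvd
      have := Int.le_of_dvd (by exact_mod_cast hi0) hdvd
      have := Finset.mem_range.1 hi
      omega
    apply ram_not_mem hp Γ hcp hTR hk
    rw [hw i (hne i hx)] at h
    have : ((i : ℤ) : ℝ) * w.w c0 = - w.w (a i) := by push_cast; linarith
    rw [this]
    exact Γ.neg_mem (hΓ i (hne i hx))
  exact ((ram_GE_pow_sub_one hζ0 hζ i).mul_GT key).mono (by linarith)

theorem ram_w_prod {ι : Type*} (s : Finset ι) (x : ι → F) (h : ∀ i ∈ s, x i ≠ 0) :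
    w.w (∏ i ∈ s, x i) = ∑ i ∈ s, w.w (x i) := by
  classical
  induction s using Finset.induction_on with
  | empty => simp [RVal.w_one]
  | insert a s ha ih =>
    have h' : ∀ i ∈ s, x i ≠ 0 := fun i hi => h i (Finset.mem_insert_of_mem hi)
    rw [Finset.prod_insert ha, Finset.sum_insert ha,
      w.map_mul _ _ (h a (Finset.mem_insert_self a s)) (Finset.prod_ne_zero_iff.2 h'), ih h']

theorem ram_w_root {p : ℕ} (hp0 : p ≠ 0) {ζ : F} (hζ : ζ ^ p = 1) : w.EQ ζ 0 := by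
  have hne : ζ ≠ 0 := by
    intro h
    rw [h, zero_pow hp0] at hζ
    exact zero_ne_one hζ
  refine ⟨hne, ?_⟩
  have h1 := RVal.w_pow (v := w) hne p
  rw [hζ, RVal.w_one] at h1
  have hp' : (p : ℝ) ≠ 0 := by exact_mod_cast hp0
  exact ((mul_eq_zero.1 h1.symm).resolve_left hp')

/-- `w (ζ - 1) = w p / (p - 1)` for every real valuation -/
theorem w_zeta_sub_one {p : ℕ} (hp : p.Prime) (hpF : (p : F) ≠ 0) {ζ : F}
    (hζ : IsPrimitiveRoot ζ p) : w.EQ (ζ - 1) (w.w (p : F) / ((p : ℝ) - 1)) := by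
  have hp1 : (0 : ℝ) < (p : ℝ) - 1 := by
    have : (1 : ℝ) < p := by exact_mod_cast hp.one_lt
    linarith
  have hne : ζ - 1 ≠ 0 := sub_ne_zero.2 (hζ.ne_one hp.one_lt)
  have hall : ∀ k, k + 1 < p → (1 - ζ ^ (k + 1) ≠ 0 ∧ w.w (1 - ζ ^ (k + 1)) = w.w (ζ - 1)) := by
    intro k hk
    have hcop : Nat.Coprime (k + 1) p :=
      Nat.Coprime.symm ((Nat.Prime.coprime_iff_not_dvd hp).2
        (fun hd => absurd (Nat.le_of_dvd (Nat.succ_pos k) hd) (not_le.2 hk)))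
    have : NeZero p := ⟨hp.ne_zero⟩
    have hζk : IsPrimitiveRoot (ζ ^ (k + 1)) p := hζ.pow_of_coprime (k + 1) hcop
    have hnek : ζ ^ (k + 1) - 1 ≠ 0 := sub_ne_zero.2 (hζk.ne_one hp.one_lt)
    obtain ⟨j, _, hj⟩ := hζk.eq_pow_of_pow_eq_one hζ.pow_eq_one
    have h1 : w.GE (ζ ^ (k + 1) - 1) (w.w (ζ - 1)) :=
      ram_GE_pow_sub_one ((ram_w_root hp.ne_zero hζ.pow_eq_one).GE le_rfl)
        ((RVal.EQ_self hne).GE le_rfl) (k + 1)
    have h2 : w.GE ((ζ ^ (k + 1)) ^ j - 1) (w.w (ζ ^ (k + 1) - 1)) :=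
      ram_GE_pow_sub_one ((ram_w_root hp.ne_zero hζk.pow_eq_one).GE le_rfl)
        ((RVal.EQ_self hnek).GE le_rfl) j
    rw [hj] at h2
    have e : 1 - ζ ^ (k + 1) = -(ζ ^ (k + 1) - 1) := by ring
    refine ⟨by rw [e]; exact neg_ne_zero.2 hnek, ?_⟩
    rw [e, RVal.w_neg]
    exact le_antisymm (h2.le_w hne) (h1.le_w hnek)
  obtain ⟨n, rfl⟩ : ∃ n, p = n + 1 := ⟨p - 1, (Nat.sub_add_cancel hp.pos).symm⟩
  have hprod := hζ.prod_one_sub_pow_eq_order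
  have h3 := ram_w_prod (w := w) (Finset.range n) (fun k => 1 - ζ ^ (k + 1))
    (fun k hk => (hall k (by have := Finset.mem_range.1 hk; omega)).1)
  rw [hprod, Finset.sum_congr rfl (fun k hk =>
    (hall k (by have := Finset.mem_range.1 hk; omega)).2), Finset.sum_const, Finset.card_range,
    nsmul_eq_mul] at h3
  refine ⟨hne, ?_⟩
  rw [eq_div_iff hp1.ne']
  push_cast at h3 ⊢
  rw [h3]
  ring

/-- the value group of the `τ`-fixed elements of `L` -/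
def ramGamma (w : RVal F) (L : Subfield F) (τ : F →+* F) : AddSubgroup ℝ where
  carrier := {t | ∃ y ∈ L, τ y = y ∧ y ≠ 0 ∧ w.w y = t}
  zero_mem' := ⟨1, L.one_mem, map_one τ, one_ne_zero, RVal.w_one⟩
  add_mem' := by
    rintro _ _ ⟨y, hy, hτy, hy0, rfl⟩ ⟨z, hz, hτz, hz0, rfl⟩
    exact ⟨y * z, L.mul_mem hy hz, by rw [map_mul, hτy, hτz], mul_ne_zero hy0 hz0,
      w.map_mul y z hy0 hz0⟩
  neg_mem' := by
    rintro _ ⟨y, hy, hτy, hy0, rfl⟩
    exact ⟨y⁻¹, L.inv_mem hy, by rw [map_inv₀, hτy], inv_ne_zero hy0, RVal.w_inv hy0⟩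

/-- the RAM lemma without discreteness -/
theorem ram_gt {p : ℕ} (hp : p.Prime) (hpF : (p : F) ≠ 0) (L : Subfield F) (τ : F →+* F)
    (hτL : ∀ x ∈ L, τ x ∈ L) (hτp : ∀ x ∈ L, τ^[p] x = x)
    {ζ c0 : F} (hζ : IsPrimitiveRoot ζ p) (hζL : ζ ∈ L) (hτζ : τ ζ = ζ)
    (hc0 : c0 ≠ 0) (hc0L : c0 ∈ L) (hτc : τ c0 = ζ * c0)
    (hTR : ¬ ∃ y ∈ L, τ y = y ∧ y ≠ 0 ∧ w.w y = w.w c0)
    {α : F} (hαL : α ∈ L) (hα : w.GE α 0) :
    w.GT (τ α - α) (w.w (p : F) / ((p : ℝ) - 1)) := by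
  obtain ⟨a, haL, hτa, hexp⟩ := ram_expand hp hpF L τ hτL hτp hζ hζL hτζ hc0 hc0L hτc hαL
  have hcp : (p : ℝ) * w.w c0 ∈ ramGamma w L τ := by
    refine ⟨c0 ^ p, L.pow_mem hc0L p, ?_, pow_ne_zero p hc0, RVal.w_pow hc0 p⟩
    rw [map_pow, hτc, mul_pow, hζ.pow_eq_one, one_mul]
  have := ram_core_gt hp (ramGamma w L τ) τ ((ram_w_root hp.ne_zero hζ.pow_eq_one).GE le_rfl)
    ((w_zeta_sub_one hp hpF hζ).GE le_rfl) hc0 hτc hcp hTR a hτa
    (fun i hi => ⟨a i, haL i, hτa i, hi, rfl⟩) (by rw [hexp]; exact hα)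
  rwa [hexp] at this

theorem ram_distinct {p : ℕ} (hp : p.Prime) (Γ : AddSubgroup ℝ) {c0 : F} (hc0 : c0 ≠ 0)
    (hcp : (p : ℝ) * w.w c0 ∈ Γ) (hTR : w.w c0 ∉ Γ) (a : ℕ → F)
    (hΓ : ∀ i, a i ≠ 0 → w.w (a i) ∈ Γ) :
    ∀ i ∈ Finset.range p, ∀ j ∈ Finset.range p, i ≠ j → a i * c0 ^ i ≠ 0 →
      a j * c0 ^ j ≠ 0 → w.w (a i * c0 ^ i) ≠ w.w (a j * c0 ^ j) := by
  have hw : ∀ i, a i ≠ 0 → w.w (a i * c0 ^ i) = w.w (a i) + i * w.w c0 := by
    intro i hi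
    rw [w.map_mul _ _ hi (pow_ne_zero i hc0), RVal.w_pow hc0]
  have hne : ∀ i, a i * c0 ^ i ≠ 0 → a i ≠ 0 := fun i h => left_ne_zero_of_mul h
  intro i hi j hj hij h1 h2 heq
  rw [hw i (hne i h1), hw j (hne j h2)] at heq
  have hk : ¬ (p : ℤ) ∣ ((i : ℤ) - j) := by
    intro hdvd
    have hi' := Finset.mem_range.1 hi
    have hj' := Finset.mem_range.1 hj
    have h3 : ((i : ℤ) - j) = 0 := by
      apply Int.eq_zero_of_abs_lt_dvd hdvd
      rw [abs_lt]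
      constructor <;> omega
    exact hij (by omega)
  apply ram_not_mem hp Γ hcp hTR hk
  have : (((i : ℤ) - j : ℤ) : ℝ) * w.w c0 = w.w (a j) - w.w (a i) := by
    push_cast
    linarith
  rw [this]
  exact Γ.sub_mem (hΓ j (hne j h2)) (hΓ i (hne i h1))

/-- the valuation of `τ α - α ≠ 0` lies in `i w(c0) + Γ` for some `0 < i < p` -/
theorem ram_diff {p : ℕ} (hp : p.Prime) (hpF : (p : F) ≠ 0) (L : Subfield F) (τ : F →+* F)
    (hτL : ∀ x ∈ L, τ x ∈ L) (hτp : ∀ x ∈ L, τ^[p] x = x)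
    {ζ c0 : F} (hζ : IsPrimitiveRoot ζ p) (hζL : ζ ∈ L) (hτζ : τ ζ = ζ)
    (hc0 : c0 ≠ 0) (hc0L : c0 ∈ L) (hτc : τ c0 = ζ * c0)
    (hTR : ¬ ∃ y ∈ L, τ y = y ∧ y ≠ 0 ∧ w.w y = w.w c0)
    {α : F} (hαL : α ∈ L) (hne : τ α ≠ α) :
    ∃ i : ℕ, 0 < i ∧ i < p ∧ ∃ y ∈ L, τ y = y ∧ y ≠ 0 ∧
      w.w (τ α - α) = w.w y + i * w.w c0 := by
  obtain ⟨a, haL, hτa, hexp⟩ := ram_expand hp hpF L τ hτL hτp hζ hζL hτζ hc0 hc0L hτc hαL
  have hcp : (p : ℝ) * w.w c0 ∈ ramGamma w L τ := by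
    refine ⟨c0 ^ p, L.pow_mem hc0L p, ?_, pow_ne_zero p hc0, RVal.w_pow hc0 p⟩
    rw [map_pow, hτc, mul_pow, hζ.pow_eq_one, one_mul]
  let a' : ℕ → F := fun i => (ζ ^ i - 1) * a i
  have ha'L : ∀ i, a' i ∈ L := fun i =>
    L.mul_mem (L.sub_mem (L.pow_mem hζL i) L.one_mem) (haL i)
  have hτa' : ∀ i, τ (a' i) = a' i := by
    intro i
    show τ ((ζ ^ i - 1) * a i) = (ζ ^ i - 1) * a i
    rw [map_mul, map_sub, map_pow, map_one, hτζ, hτa]
  have hdiff : τ α - α = ∑ i ∈ Finset.range p, a' i * c0 ^ i := by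
    rw [← hexp, map_sum, ← Finset.sum_sub_distrib]
    refine Finset.sum_congr rfl fun i _ => ?_
    show _ = (ζ ^ i - 1) * a i * c0 ^ i
    rw [map_mul, map_pow, hτa, hτc, mul_pow]
    ring
  have hd := ram_distinct hp (ramGamma w L τ) hc0 hcp hTR a'
    (fun i hi => ⟨a' i, ha'L i, hτa' i, hi, rfl⟩)
  rcases ram_min (Finset.range p) (fun i => a' i * c0 ^ i) hd with h0 | ⟨_, i₀, hi₀, h2, h3, _⟩
  · exfalso
    apply hne
    rw [← sub_eq_zero, hdiff]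
    exact Finset.sum_eq_zero h0
  · have ha0 : a' i₀ ≠ 0 := left_ne_zero_of_mul h2
    refine ⟨i₀, ?_, Finset.mem_range.1 hi₀, a' i₀, ha'L i₀, hτa' i₀, ha0, ?_⟩
    · rcases Nat.eq_zero_or_pos i₀ with h | h
      · exfalso
        apply ha0
        show (ζ ^ i₀ - 1) * a i₀ = 0
        rw [h, pow_zero, sub_self, zero_mul]
      · exact h
    · rw [hdiff, h3, w.map_mul _ _ ha0 (pow_ne_zero i₀ hc0), RVal.w_pow hc0]

/-- the common set-up of `ram_inertia` and `ram_inertia_diff` -/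
theorem ram_setup {K : Type*} [Field K] [Algebra K F] {p : ℕ} (hp : p.Prime)
    (I : Subgroup (F ≃ₐ[K] F)) {ζ c0 : F} (hζ : IsPrimitiveRoot ζ p)
    (hc0 : c0 ≠ 0) (hpow : ∀ σ ∈ I, σ ζ = ζ → σ (c0 ^ p) = c0 ^ p)
    {τ : F ≃ₐ[K] F} (hτ : τ ∈ I) (hτζ : τ ζ = ζ) (hτc0 : τ c0 ≠ c0) :
    ∃ (L : Subfield F) (ζ' : F), (∀ x, x ∈ L ↔ ∀ σ ∈ I, σ ζ = ζ → σ c0 = c0 → σ x = x) ∧
      (∀ x ∈ L, (τ : F →+* F) x ∈ L) ∧ (∀ x ∈ L, (τ : F →+* F)^[p] x = x) ∧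
      IsPrimitiveRoot ζ' p ∧ ζ' ∈ L ∧ (τ : F →+* F) ζ' = ζ' ∧ c0 ∈ L ∧
      (τ : F →+* F) c0 = ζ' * c0 ∧
      (∀ y ∈ L, (τ : F →+* F) y = y → ∀ σ ∈ I, σ ζ = ζ → σ y = y) := by
  have : NeZero p := ⟨hp.ne_zero⟩
  have : Fact p.Prime := ⟨hp⟩
  -- the root of unity `ζ' = τ c0 / c0`
  have hroot : ∀ σ ∈ I, σ ζ = ζ → (σ c0 / c0) ^ p = 1 := by
    intro σ hσ hσζ
    rw [div_pow, ← map_pow, hpow σ hσ hσζ, div_self (pow_ne_zero p hc0)]
  set ζ' : F := τ c0 / c0 with hζ'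
  have hτc : τ c0 = ζ' * c0 := by rw [hζ', div_mul_cancel₀ _ hc0]
  have hζ'1 : ζ' ≠ 1 := by
    intro h
    rw [h, one_mul] at hτc
    exact hτc0 hτc
  have hζ'p : IsPrimitiveRoot ζ' p := by
    have h1 : orderOf ζ' = p := orderOf_eq_prime (hroot τ hτ hτζ) hζ'1
    exact h1 ▸ IsPrimitiveRoot.orderOf ζ'
  obtain ⟨j, _, hj⟩ := hζ.eq_pow_of_pow_eq_one hζ'p.pow_eq_one
  have hfixζ' : ∀ σ : F ≃ₐ[K] F, σ ζ = ζ → σ ζ' = ζ' := by
    intro σ hσ
    rw [← hj, map_pow, hσ]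
  -- powers of `τ`
  have hpowζ : ∀ n : ℕ, (τ ^ n) ζ = ζ := by
    intro n
    induction n with
    | zero => rfl
    | succ n ih => rw [pow_succ', AlgEquiv.mul_apply, ih, hτζ]
  have hpowc : ∀ n : ℕ, (τ ^ n) c0 = ζ' ^ n * c0 := by
    intro n
    induction n with
    | zero => simp
    | succ n ih =>
      rw [pow_succ', AlgEquiv.mul_apply, ih, map_mul, map_pow, hfixζ' τ hτζ, hτc]
      ring
  have hpowfix : ∀ (y : F), τ y = y → ∀ n : ℕ, (τ ^ n) y = y := by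
    intro y hy n
    induction n with
    | zero => rfl
    | succ n ih => rw [pow_succ', AlgEquiv.mul_apply, ih, hy]
  have hiter : ∀ (n : ℕ) (x : F), (τ : F →+* F)^[n] x = (τ ^ n) x := by
    intro n x
    induction n with
    | zero => rfl
    | succ n ih =>
      rw [Function.iterate_succ_apply', ih, pow_succ', AlgEquiv.mul_apply]
      rfl
  -- the field `L`
  let L : Subfield F :=
    { carrier := {x | ∀ σ ∈ I, σ ζ = ζ → σ c0 = c0 → σ x = x}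
      mul_mem' := fun {a b} ha hb σ h1 h2 h3 => by rw [map_mul, ha σ h1 h2 h3, hb σ h1 h2 h3]
      one_mem' := fun σ _ _ _ => map_one σ
      add_mem' := fun {a b} ha hb σ h1 h2 h3 => by rw [map_add, ha σ h1 h2 h3, hb σ h1 h2 h3]
      zero_mem' := fun σ _ _ _ => map_zero σ
      neg_mem' := fun {a} ha σ h1 h2 h3 => by rw [map_neg, ha σ h1 h2 h3]
      inv_mem' := fun a ha σ h1 h2 h3 => by rw [map_inv₀, ha σ h1 h2 h3] }
  have hL : ∀ x, x ∈ L ↔ ∀ σ ∈ I, σ ζ = ζ → σ c0 = c0 → σ x = x := fun _ => Iff.rfl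
  have hτL : ∀ x ∈ L, (τ : F →+* F) x ∈ L := by
    intro x hx σ hσ hσζ hσc
    show σ (τ x) = τ x
    have h1 : τ⁻¹ * σ * τ ∈ I := I.mul_mem (I.mul_mem (I.inv_mem hτ) hσ) hτ
    have e : ∀ z, (τ⁻¹ * σ * τ) z = τ.symm (σ (τ z)) := fun _ => rfl
    have h2 : (τ⁻¹ * σ * τ) ζ = ζ := by
      rw [e, hτζ, hσζ, AlgEquiv.symm_apply_eq, hτζ]
    have h3 : (τ⁻¹ * σ * τ) c0 = c0 := by
      rw [e, hτc, map_mul, hfixζ' σ hσζ, hσc, AlgEquiv.symm_apply_eq, hτc]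
    have h4 := hx _ h1 h2 h3
    rw [e, AlgEquiv.symm_apply_eq] at h4
    exact h4
  have hτp : ∀ x ∈ L, (τ : F →+* F)^[p] x = x := by
    intro x hx
    rw [hiter]
    refine hx _ (I.pow_mem hτ p) (hpowζ p) ?_
    rw [hpowc, hζ'p.pow_eq_one, one_mul]
  have hζ'L : ζ' ∈ L := fun σ _ hσζ _ => hfixζ' σ hσζ
  have hc0L : c0 ∈ L := fun σ _ _ hσc => hσc
  have hdesc : ∀ y ∈ L, (τ : F →+* F) y = y → ∀ σ ∈ I, σ ζ = ζ → σ y = y := by
    intro y hy hτy σ hσ hσζ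
    obtain ⟨k, hk, hk'⟩ := hζ'p.eq_pow_of_pow_eq_one (hroot σ hσ hσζ)
    have hσc : σ c0 = ζ' ^ k * c0 := by rw [hk', div_mul_cancel₀ _ hc0]
    have h1 : σ * τ ^ (p - k) ∈ I := I.mul_mem hσ (I.pow_mem hτ _)
    have h2 : (σ * τ ^ (p - k)) ζ = ζ := by rw [AlgEquiv.mul_apply, hpowζ, hσζ]
    have h3 : (σ * τ ^ (p - k)) c0 = c0 := by
      rw [AlgEquiv.mul_apply, hpowc, map_mul, map_pow, hfixζ' σ hσζ, hσc, ← mul_assoc, ← pow_add,
        Nat.sub_add_cancel hk.le, hζ'p.pow_eq_one, one_mul]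
    have h4 := hy _ h1 h2 h3
    rw [AlgEquiv.mul_apply, hpowfix y hτy] at h4
    exact h4
  exact ⟨L, ζ', hL, hτL, hτp, hζ'p, hζ'L, hfixζ' τ hτζ, hc0L, hτc, hdesc⟩

/-- the RAM lemma for a group of automorphisms (`I` = inertia, `I_ζ` = stabiliser of `ζ`):
if `w c0` is not the valuation of an `I_ζ`-fixed element then every integral `α` fixed by the
stabiliser of `c0` in `I_ζ` satisfies `w (τ α - α) > w p / (p - 1)`. -/
theorem ram_inertia {K : Type*} [Field K] [Algebra K F] {p : ℕ} (hp : p.Prime)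
    (hpF : (p : F) ≠ 0) (I : Subgroup (F ≃ₐ[K] F)) {ζ c0 : F} (hζ : IsPrimitiveRoot ζ p)
    (hc0 : c0 ≠ 0) (hpow : ∀ σ ∈ I, σ ζ = ζ → σ (c0 ^ p) = c0 ^ p)
    (hTR : ¬ ∃ y : F, y ≠ 0 ∧ (∀ σ ∈ I, σ ζ = ζ → σ y = y) ∧ w.w y = w.w c0)
    {τ : F ≃ₐ[K] F} (hτ : τ ∈ I) (hτζ : τ ζ = ζ) {α : F} (hα : w.GE α 0)
    (hfix : ∀ σ ∈ I, σ ζ = ζ → σ c0 = c0 → σ α = α) :
    w.GT (τ α - α) (w.w (p : F) / ((p : ℝ) - 1)) := by
  by_cases hτc0 : τ c0 = c0
  · rw [hfix τ hτ hτζ hτc0, sub_self]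
    exact RVal.GT_zero _
  obtain ⟨L, ζ', hL, hτL, hτp, hζ'p, hζ'L, hτζ', hc0L, hτc, hdesc⟩ :=
    ram_setup hp I hζ hc0 hpow hτ hτζ hτc0
  refine ram_gt hp hpF L (τ : F →+* F) hτL hτp hζ'p hζ'L hτζ' hc0 hc0L hτc ?_
    ((hL α).2 hfix) hα
  rintro ⟨y, hyL, hτy, hy0, hwy⟩
  exact hTR ⟨y, hy0, hdesc y hyL hτy, hwy⟩

/-- no integrality of `α` needed: the valuation of `τ α - α ≠ 0` is `w y + i w(c0)`,
`y` fixed by `I_ζ`, `0 < i < p` -/
theorem ram_inertia_diff {K : Type*} [Field K] [Algebra K F] {p : ℕ} (hp : p.Prime)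
    (hpF : (p : F) ≠ 0) (I : Subgroup (F ≃ₐ[K] F)) {ζ c0 : F} (hζ : IsPrimitiveRoot ζ p)
    (hc0 : c0 ≠ 0) (hpow : ∀ σ ∈ I, σ ζ = ζ → σ (c0 ^ p) = c0 ^ p)
    (hTR : ¬ ∃ y : F, y ≠ 0 ∧ (∀ σ ∈ I, σ ζ = ζ → σ y = y) ∧ w.w y = w.w c0)
    {τ : F ≃ₐ[K] F} (hτ : τ ∈ I) (hτζ : τ ζ = ζ) {α : F}
    (hfix : ∀ σ ∈ I, σ ζ = ζ → σ c0 = c0 → σ α = α) (hne : τ α ≠ α) :
    ∃ i : ℕ, 0 < i ∧ i < p ∧ ∃ y : F, y ≠ 0 ∧ (∀ σ ∈ I, σ ζ = ζ → σ y = y) ∧
      w.w (τ α - α) = w.w y + i * w.w c0 := by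
  have hτc0 : τ c0 ≠ c0 := fun h => hne (hfix τ hτ hτζ h)
  obtain ⟨L, ζ', hL, hτL, hτp, hζ'p, hζ'L, hτζ', hc0L, hτc, hdesc⟩ :=
    ram_setup hp I hζ hc0 hpow hτ hτζ hτc0
  obtain ⟨i, hi0, hip, y, hyL, hτy, hy0, hw⟩ :=
    ram_diff (w := w) hp hpF L (τ : F →+* F) hτL hτp hζ'p hζ'L hτζ' hc0 hc0L hτc
      (by
        rintro ⟨y, hyL, hτy, hy0, hwy⟩
        exact hTR ⟨y, hy0, hdesc y hyL hτy, hwy⟩)
      ((hL α).2 hfix) hne
  exact ⟨i, hi0, hip, y, hy0, hdesc y hyL hτy, hw⟩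

end Fermat.Agent.S44
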