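import Fermat.Agent.S33.IF.G
import Fermat.Agent.S33.Raw.Main
import Fermat.Agent.S44.Top.Old

/-!
# S44 : the interface between TOP and GEO (= NODE + TR + MOD + REG)          (helper10, owner of S44/TOP)

`q : Nat.Primes` is `p = P.p ≥ 5`, level `N = M1 * p`, `p ∤ M1`, `A = AA q`, `I = Iq q`, `F = FN (M1 * p)`, `W = Wq hc`, `Nm = normAlpha M1 p`.

## What TOP gives to GEO : `NewHyp q M1 hc S a u t`
`x = [u]`, `y₀ = [t]` are Kummer classes (`PDiv`), `T_ℓ`-eigen with eigenvalues `a ℓ` (`ℓ ∈ S`), `p`-new (`Nm`, `Nm ∘ W` kill them),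
`σ x - x ∈ 𝔽_p y₀`, `σ y₀ = ε(σ) y₀` for `σ ∈ I`, `x ≠ 0` is fixed by some `σ₀ ∈ I` which moves `μ_p`,
and the extension cut out by `x` over `K₀(ζ_p)` is NOT très ramifiée (`ntr`; this is the only place where the elliptic curve enters; TOP proves it from E-SIDE + `Top/Compare`).

## What GEO gives back : `geo_final` (the stub is in `S44/Geo/Final.lean`)
either `x` has a representative which is `≡` unit constants on both components (`UC2`; then `S33.thmGn` gives `x = 0`: contradiction),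
or (`RegOut`) a nonzero `b ∈ S₂(Γ₀(M1), ℤ) ⊗ k ⊆ k[[q]]` with `T_ℓ b = a ℓ b` (`b = θ(ū)/ū`; then `Top.outq` gives the eigenform of level `M1`),
or (`SpOut`, output of SP) a nonzero Kummer eigenclass of level `M1` (then `Top.spout` gives the eigenform of level `M1`).
-/

set_option autoImplicit false
set_option synthInstance.maxHeartbeats 400000

open HahnSeries ModularCurve AlgebraicCurve Fermat.Agent.S24 Fermat.Agent.S29 Fermat.Agent.S18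
  Fermat.Agent.ES Fermat.Agent.ES.Alg Fermat.Agent.S34.Mod Fermat.Agent.S05 Fermat.Agent.S55.B ExtCitation
  Fermat.Agent.S33 CongruenceSubgroup
open Fermat.Agent.S55 (Dq Iq)

noncomputable section

namespace Fermat.Agent.S44

variable (q : Nat.Primes) (M1 : ℕ) [NeZero M1] [NeZero (q : ℕ)]

/-- `u` is a `p`-th power -/
def IsPow {N : ℕ} (p : ℕ) (u : FN N) : Prop := ∃ g : FN N, u = g ^ p

/-- the hypotheses on the two Kummer classes `x = [u]`, `y₀ = [t]` -/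
structure NewHyp (hc : Nat.Coprime (q : ℕ) M1) (S : Set ℕ) (a : ℕ → ℤ) (u t : FN (M1 * (q : ℕ))) : Prop where
  pdiv_u : PDiv Kb (FN (M1 * (q : ℕ))) (q : ℕ) u
  pdiv_t : PDiv Kb (FN (M1 * (q : ℕ))) (q : ℕ) t
  not_pow : ¬ IsPow (q : ℕ) u
  nm_u : IsPow (q : ℕ) (normAlpha M1 (q : ℕ) u)
  nmW_u : IsPow (q : ℕ) (normAlpha M1 (q : ℕ) (Wq hc u))
  nm_t : IsPow (q : ℕ) (normAlpha M1 (q : ℕ) t)
  nmW_t : IsPow (q : ℕ) (normAlpha M1 (q : ℕ) (Wq hc t))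
  eig_u : ∀ (ℓ : ℕ) (hℓ : ℓ.Prime), ¬ ℓ ∣ M1 * (q : ℕ) → ℓ ∈ S →
    ∃ g : FN (M1 * (q : ℕ)), @Tl (M1 * (q : ℕ)) ℓ _ ⟨hℓ.ne_zero⟩ u = u ^ (a ℓ) * g ^ (q : ℕ)
  eig_t : ∀ (ℓ : ℕ) (hℓ : ℓ.Prime), ¬ ℓ ∣ M1 * (q : ℕ) → ℓ ∈ S →
    ∃ g : FN (M1 * (q : ℕ)), @Tl (M1 * (q : ℕ)) ℓ _ ⟨hℓ.ne_zero⟩ t = t ^ (a ℓ) * g ^ (q : ℕ)
  act_u : ∀ σ ∈ Iq q, ∃ k : ℕ, PEq (q : ℕ) (gal (M1 * (q : ℕ)) σ u) (u * t ^ k)
  act_t : ∀ σ ∈ Iq q, ∀ c : ℕ, Cyc (q : ℕ) σ c → PEq (q : ℕ) (gal (M1 * (q : ℕ)) σ t) (t ^ c)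
  fix : ∃ σ₀ ∈ Iq q, (∃ ζ : Qb, ζ ^ (q : ℕ) = 1 ∧ σ₀ ζ ≠ ζ) ∧ PEq (q : ℕ) (gal (M1 * (q : ℕ)) σ₀ u) u
  /-- NOT très ramifiée -/
  ntr : ∀ ζ c0 : Qb, IsPrimitiveRoot ζ (q : ℕ) → c0 ≠ 0 →
    (∀ σ ∈ Iq q, σ ζ = ζ → σ (c0 ^ (q : ℕ)) = c0 ^ (q : ℕ)) →
    (∀ σ ∈ Iq q, σ ζ = ζ → (σ c0 = c0 ↔ PEq (q : ℕ) (gal (M1 * (q : ℕ)) σ u) u)) →
    ∃ y : Qb, y ≠ 0 ∧ (∀ σ ∈ Iq q, σ ζ = ζ → σ y = y) ∧ (wq q).w y = (wq q).w c0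

/-- a nonzero element of `S₂(Γ₀(M1), ℤ) ⊗ k ⊆ k[[q]]` (`k` = residue field of `AA q`) which is an eigenvector of the `T_ℓ`, `ℓ ∈ S` -/
def RegOut (S : Set ℕ) (a : ℕ → ℤ) : Prop :=
  ∃ (m : ℕ) (f : Fin m → CuspForm (Gamma0 M1) 2) (af : Fin m → ℕ → ℤ) (c : Fin m → kA (AA q)),
    (∀ i n, (af i n : ℂ) = ModularFormClass.qCoeff (f i) n) ∧
    (∃ n, ∑ i, c i * (af i n : kA (AA q)) ≠ 0) ∧
    ∀ ℓ : ℕ, ℓ.Prime → ¬ ℓ ∣ M1 * (q : ℕ) → ℓ ∈ S → ∀ n : ℕ,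
      (∑ i, c i * (af i (ℓ * n) : kA (AA q))) +
          (if ℓ ∣ n then (ℓ : kA (AA q)) * ∑ i, c i * (af i (n / ℓ) : kA (AA q)) else 0) =
        (a ℓ : kA (AA q)) * ∑ i, c i * (af i n : kA (AA q))

/-- (output of SP) a nonzero Kummer class of level `M1` which is an eigenvector of the `T_ℓ`, `ℓ ∈ S` -/
def SpOut (S : Set ℕ) (a : ℕ → ℤ) : Prop :=
  ∃ u' : FN M1, PDiv Kb (FN M1) (q : ℕ) u' ∧ ¬ IsPow (q : ℕ) u' ∧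
    ∀ (ℓ : ℕ) (hℓ : ℓ.Prime), ¬ ℓ ∣ M1 * (q : ℕ) → ℓ ∈ S →
      ∃ g : FN M1, @Tl M1 ℓ _ ⟨hℓ.ne_zero⟩ u' = u' ^ (a ℓ) * g ^ (q : ℕ)

end Fermat.Agent.S44
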