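import Fermat.Agent.S44.Alg.Model
import Fermat.Agent.S44.Mod.Rng
import Fermat.Agent.S44.Mod.Nor
import Fermat.Agent.S44.Mod.XD

/-!
# S44 / MOD : the export          (helper14)

`nodalModel S b : NodalModel (BB S b) (EE q M1) k((Q)) k((Q)) p (r1 S b) (r2 S b) 12`.
Dictionary with the valuations: `r1_eq_zero_iff`, `r2_eq_zero_iff`, `wG_int`, `wZ_int` (`Mod/Ker.lean`); with `C0`: `exists_rat`, `mem_BB`.
-/

set_option autoImplicit false
set_option synthInstance.maxHeartbeats 400000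

open HahnSeries ModularCurve AlgebraicCurve Polynomial Fermat.Agent.S24 Fermat.Agent.S29 Fermat.Agent.S18
  Fermat.Agent.ES Fermat.Agent.ES.Alg Fermat.Agent.S34.Mod Fermat.Agent.S05 Fermat.Agent.S55.B ExtCitation
  Fermat.Agent.S33
open Fermat.Agent.S55 (Dq Iq)

noncomputable section

namespace Fermat.Agent.S44.Mod

variable {q : Nat.Primes} {M1 r : ℕ} [NeZero M1] [NeZero (q : ℕ)] [NeZero r]
variable (S : Setup M1 (q : ℕ) r (AA q))

theorem r_q (b : Bool) : r1 S b ((q : ℕ) : BB S b) = 0 ∧ r2 S b ((q : ℕ) : BB S b) = 0 := by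
  have h : (((q : ℕ) : BB S b)) ∈ RingHom.ker (r1 S b) ⊓ RingHom.ker (r2 S b) := by
    rw [ker_inf]; exact Ideal.subset_span rfl
  exact ⟨h.1, h.2⟩

theorem nodalModel (b : Bool) : Alg.NodalModel (BB S b) (EE q M1) (LaurentSeries (kA (AA q)))
    (LaurentSeries (kA (AA q))) ((q : ℕ) : BB S b) (r1 S b) (r2 S b) 12 := by
  obtain ⟨x, x', u, hu, hxx, h1, h2⟩ := exists_xd S b
  have hz1 : r1 S b x * r1 S b x' = 0 := by
    rw [← map_mul, hxx, map_mul, map_pow, (r_q S b).1]; simp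
  have hz2 : r2 S b x * r2 S b x' = 0 := by
    rw [← map_mul, hxx, map_mul, map_pow, (r_q S b).2]; simp
  exact
  { noeth := isNoetherianRing_BB S b
    frac := isFractionRing_BB S b
    normal := isIntegrallyClosed_BB S b
    ker := ker_inf S b
    normal₁ := normal₁ S b
    normal₂ := normal₂ S b
    dim₁ := dim₁ S b
    dim₂ := dim₂ S b
    rad₁ := radical₁ S b
    rad₂ := radical₂ S b
    sep := ⟨x, (mul_eq_zero.1 hz2).resolve_right h2, h1⟩
    sep' := ⟨x', (mul_eq_zero.1 hz1).resolve_left h1, h2⟩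
    hm := by norm_num
    xx := ⟨x, x', u, hu, hxx, h1, h2⟩ }

end Fermat.Agent.S44.Mod
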