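import Fermat.Agent.S44.Ram
import Fermat.Agent.S33.Val.Cyc

/-!
# S44 / RamQ : the RAM lemma for `Qb`, `wq q`, `Iq q`  (denominator form, helper5's (RAM'))
-/

set_option autoImplicit false

namespace Fermat.Agent.S44

open Fermat.Agent.S05 Fermat.Agent.S55.B ExtCitation Fermat.Agent.S33
open Fermat.Agent.S55 (Dq Iq GQ Qb)

variable (q : Nat.Primes)

/-- elements fixed by the stabiliser of `ζ` in inertia have valuation in `(1/n) ℤ`, `0 < n < p` -/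
theorem ramQ_val {ζ : Qb} (hζ : IsPrimitiveRoot ζ (q : ℕ)) :
    ∃ n : ℕ, 0 < n ∧ n < (q : ℕ) ∧ ∀ y : Qb, y ≠ 0 → (∀ σ ∈ Iq q, σ ζ = ζ → σ y = y) →
      ∃ k : ℤ, (n : ℝ) * (wq q).w y = k := by
  obtain ⟨h1, h2⟩ := relIndex_stab_zeta q hζ
  refine ⟨_, Nat.pos_of_ne_zero h1, lt_of_le_of_lt h2 (Nat.sub_lt q.2.pos one_pos), ?_⟩
  intro y hy0 hy
  refine w_of_relIndex q (stab_le _ _) h1 (mem_Fx.2 fun σ hσ => hy σ hσ.1 hσ.2) hy0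

/-- (RAM') : in the TR situation the valuation of `τ α - α ≠ 0` has a denominator divisible by `p` -/
theorem ram_denominator {ζ c0 : Qb} (hζ : IsPrimitiveRoot ζ (q : ℕ)) (hc0 : c0 ≠ 0)
    (hpow : ∀ σ ∈ Iq q, σ ζ = ζ → σ (c0 ^ (q : ℕ)) = c0 ^ (q : ℕ)) {m : ℤ}
    (hm : (wq q).w (c0 ^ (q : ℕ)) = m) (hpm : ¬ ((q : ℕ) : ℤ) ∣ m)
    {τ : GQ} (hτ : τ ∈ Iq q) (hτζ : τ ζ = ζ) {α : Qb}
    (hfix : ∀ σ ∈ Iq q, σ ζ = ζ → σ c0 = c0 → σ α = α) (hne : τ α ≠ α) :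
    ¬ ∃ (N : ℕ) (k : ℤ), ¬ (q : ℕ) ∣ N ∧ (N : ℝ) * (wq q).w (τ α - α) = k := by
  obtain ⟨n, hn0, hnq, hn⟩ := ramQ_val q hζ
  have hqZ : Prime ((q : ℕ) : ℤ) := Nat.prime_iff_prime_int.1 q.2
  have hnq' : ¬ ((q : ℕ) : ℤ) ∣ (n : ℤ) := by
    intro h
    have := Int.le_of_dvd (by exact_mod_cast hn0) h
    omega
  have hm' : ((q : ℕ) : ℝ) * (wq q).w c0 = m := by rw [← RVal.w_pow hc0]; exact hm
  have hTR : ¬ ∃ y : Qb, y ≠ 0 ∧ (∀ σ ∈ Iq q, σ ζ = ζ → σ y = y) ∧ (wq q).w y = (wq q).w c0 := by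
    rintro ⟨y, hy0, hy, hw⟩
    obtain ⟨k, hk⟩ := hn y hy0 hy
    rw [hw] at hk
    have h1 : ((n * m : ℤ) : ℝ) = (((q : ℕ) : ℤ) * k : ℤ) := by
      push_cast
      rw [← hk, ← hm']
      ring
    have h2 : (n : ℤ) * m = ((q : ℕ) : ℤ) * k := by exact_mod_cast h1
    rcases hqZ.dvd_or_dvd (Dvd.intro _ h2.symm) with h | h
    · exact hnq' h
    · exact hpm h
  obtain ⟨i, hi0, hiq, y, hy0, hy, hw⟩ :=
    ram_inertia_diff (w := wq q) q.2 (q_ne_zero q) (Iq q) hζ hc0 hpow hTR hτ hτζ hfix hne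
  rintro ⟨N, k, hN, hk⟩
  obtain ⟨g, hg⟩ := hn y hy0 hy
  rw [hw] at hk
  have h1 : ((N * (((q : ℕ) : ℤ) * g + n * i * m) : ℤ) : ℝ) = ((n * ((q : ℕ) : ℤ) * k : ℤ) : ℝ) := by
    push_cast
    rw [← hk, ← hg, ← hm']
    ring
  have h2 : (N : ℤ) * (((q : ℕ) : ℤ) * g + n * i * m) = n * ((q : ℕ) : ℤ) * k := by
    exact_mod_cast h1
  have h3 : ((q : ℕ) : ℤ) ∣ (N : ℤ) * (n * i * m) := by
    have : (N : ℤ) * (n * i * m) = ((q : ℕ) : ℤ) * (n * k - N * g) := by linear_combination h2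
    exact Dvd.intro _ this.symm
  have hi' : ¬ ((q : ℕ) : ℤ) ∣ (i : ℤ) := by
    intro h
    have := Int.le_of_dvd (by exact_mod_cast hi0) h
    omega
  have hN' : ¬ ((q : ℕ) : ℤ) ∣ (N : ℤ) := fun h => hN (Int.natCast_dvd_natCast.1 h)
  rcases hqZ.dvd_or_dvd h3 with h | h
  · exact hN' h
  rcases hqZ.dvd_or_dvd h with h | h
  · rcases hqZ.dvd_or_dvd h with h | h
    · exact hnq' h
    · exact hi' h
  · exact hpm h

end Fermat.Agent.S44
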